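import Mathlib.RingTheory.Valuation.RamificationGroup
import Mathlib.RingTheory.Algebraic.Integral
import Mathlib.GroupTheory.OrderOfElement
import Mathlib.Algebra.GroupWithZero.Action.Basic
import Mathlib.Algebra.Ring.GeomSum
import Fermat.Prelude.Def_FLTPrelim_Ramification
import Fermat.Prelude.Def_EllipticCurve_FrobeniusTrace

/-!
# Decomposition, inertia and wild inertia of a valuation subring

For an algebraic extension `L/K` and a valuation subring `A` of `L` we give elementwise
membership criteria for the decomposition and inertia subgroups and we define the wild inertia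
subgroup `wildInertia K A`, consisting of the `σ` with `v (σ x - x) < v x` for all `x ≠ 0`.
-/

set_option autoImplicit false

namespace Fermat.Agent.LocalInertia

open IsLocalRing
open scoped Pointwise

variable {K L : Type*} [Field K] [Field L] [Algebra K L] {A : ValuationSubring L}

/-- Elementwise criterion for the decomposition subgroup. -/
lemma mem_decompositionSubgroup_iff {σ : L ≃ₐ[K] L} :
    σ ∈ A.decompositionSubgroup K ↔ ∀ x : L, σ x ∈ A ↔ x ∈ A := by
  rw [MulAction.mem_stabilizer_iff]
  constructor
  · intro h x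
    conv_lhs => rw [← h]
    exact ValuationSubring.smul_mem_pointwise_smul_iff (g := σ) (S := A) (x := x)
  · intro h
    apply SetLike.ext
    intro x
    rw [ValuationSubring.mem_pointwise_smul_iff_inv_smul_mem, ← h, ← AlgEquiv.smul_def,
      smul_inv_smul]

lemma valuation_apply_le_iff {σ : L ≃ₐ[K] L} (hσ : σ ∈ A.decompositionSubgroup K) (x y : L) :
    A.valuation (σ x) ≤ A.valuation (σ y) ↔ A.valuation x ≤ A.valuation y := by
  rcases eq_or_ne y 0 with rfl | hy
  · simp
  have hy' : σ y ≠ 0 := by simpa using hy
  have h1 : 0 < A.valuation y := by simpa [zero_lt_iff] using hy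
  have h2 : 0 < A.valuation (σ y) := by simpa [zero_lt_iff] using hy'
  rw [← div_le_one₀ h2, ← div_le_one₀ h1, ← map_div₀ A.valuation x, ← map_div₀ A.valuation,
    ← map_div₀, A.valuation_le_one_iff, A.valuation_le_one_iff, mem_decompositionSubgroup_iff.1 hσ]

/-- A periodic point of an automorphism of an algebraic extension. -/
lemma exists_pow_apply_eq_self [Algebra.IsAlgebraic K L] (σ : L ≃ₐ[K] L) (x : L) :
    ∃ n : ℕ, 0 < n ∧ (σ ^ n) x = x := by
  have hint : IsIntegral K x := (Algebra.IsAlgebraic.isAlgebraic x).isIntegral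
  have hfin : (Set.range fun n : ℕ => (σ ^ n) x).Finite := by
    refine ((minpoly K x).rootSet_finite L).subset ?_
    rintro _ ⟨n, rfl⟩
    rw [Polynomial.mem_rootSet]
    exact ⟨minpoly.ne_zero hint, by rw [Polynomial.aeval_algHom_apply, minpoly.aeval, map_zero]⟩
  obtain ⟨i, j, hij, heq⟩ : ∃ i j : ℕ, i < j ∧ (σ ^ i) x = (σ ^ j) x := by
    by_contra! hne
    refine Set.infinite_range_of_injective (f := fun n : ℕ => (σ ^ n) x) ?_ hfin
    intro i j hij
    rcases lt_trichotomy i j with h | h | h
    · exact absurd hij (hne i j h)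
    · exact h
    · exact absurd hij.symm (hne j i h)
  refine ⟨j - i, by omega, (σ ^ i).injective ?_⟩
  rw [← AlgEquiv.mul_apply, ← pow_add, Nat.add_sub_cancel' hij.le, heq]

/-- An element of the decomposition group preserves the valuation. -/
lemma valuation_apply [Algebra.IsAlgebraic K L] {σ : L ≃ₐ[K] L}
    (hσ : σ ∈ A.decompositionSubgroup K) (x : L) : A.valuation (σ x) = A.valuation x := by
  obtain ⟨n, hn, hx⟩ := exists_pow_apply_eq_self σ x
  have hlt : ∀ a b : L, A.valuation a < A.valuation b → A.valuation (σ a) < A.valuation (σ b) := by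
    intro a b h
    rw [lt_iff_not_ge] at h ⊢
    rwa [valuation_apply_le_iff hσ]
  rcases lt_trichotomy (A.valuation (σ x)) (A.valuation x) with h | h | h
  · have key : ∀ m : ℕ, A.valuation ((σ ^ (m + 1)) x) < A.valuation x := by
      intro m
      induction m with
      | zero => simpa using h
      | succ m ih =>
        rw [pow_succ' σ (m + 1), AlgEquiv.mul_apply]
        exact (hlt _ _ ih).trans h
    have := key (n - 1)
    rw [Nat.sub_add_cancel hn, hx] at this
    exact absurd this (lt_irrefl _)
  · exact h
  · have key : ∀ m : ℕ, A.valuation x < A.valuation ((σ ^ (m + 1)) x) := by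
      intro m
      induction m with
      | zero => simpa using h
      | succ m ih =>
        rw [pow_succ' σ (m + 1), AlgEquiv.mul_apply]
        exact h.trans (hlt _ _ ih)
    have := key (n - 1)
    rw [Nat.sub_add_cancel hn, hx] at this
    exact absurd this (lt_irrefl _)

/-- Inertia is contained in the decomposition group. -/
lemma inertiaSubgroupIn_le_decompositionSubgroup :
    A.inertiaSubgroupIn K ≤ A.decompositionSubgroup K := by
  rintro σ ⟨⟨τ, hτ⟩, -, rfl⟩
  exact hτ

/-- Elementwise criterion for the inertia subgroup. -/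
lemma mem_inertiaSubgroupIn_iff {σ : L ≃ₐ[K] L} :
    σ ∈ A.inertiaSubgroupIn K ↔
      σ ∈ A.decompositionSubgroup K ∧ ∀ x ∈ A, A.valuation (σ x - x) < 1 := by
  constructor
  · rintro ⟨⟨τ, hτ⟩, hmem, rfl⟩
    refine ⟨hτ, fun x hx => ?_⟩
    have h := RingEquiv.congr_fun (MonoidHom.mem_ker.1 hmem) (residue A ⟨x, hx⟩)
    simp only [MulSemiringAction.toRingAut_apply, MulSemiringAction.toRingEquiv_apply_apply,
      RingAut.one_apply] at h
    rw [← IsLocalRing.ResidueField.residue_smul, ← sub_eq_zero, ← map_sub, residue_eq_zero_iff,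
      ValuationSubring.valuation_lt_one_iff] at h
    exact h
  · rintro ⟨hσ, h⟩
    refine ⟨⟨σ, hσ⟩, MonoidHom.mem_ker.2 (RingEquiv.ext fun y => ?_), rfl⟩
    obtain ⟨⟨x, hx⟩, rfl⟩ := residue_surjective y
    simp only [MulSemiringAction.toRingAut_apply, MulSemiringAction.toRingEquiv_apply_apply,
      RingAut.one_apply]
    rw [← IsLocalRing.ResidueField.residue_smul, ← sub_eq_zero, ← map_sub, residue_eq_zero_iff,
      ValuationSubring.valuation_lt_one_iff]
    exact h x hx

/-- A convenient form of `IsFrobeniusAt`. -/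
lemma isFrobeniusAt_valuation_lt {σ : L ≃ₐ[K] L} {q : ℕ} (h : A.IsFrobeniusAt σ q) {x : L}
    (hx : x ∈ A) : A.valuation (σ x - x ^ q) < 1 := by
  have h' := h.smul_residue_eq (residue A ⟨x, hx⟩)
  rw [← IsLocalRing.ResidueField.residue_smul, ← map_pow, ← sub_eq_zero, ← map_sub,
    residue_eq_zero_iff, ValuationSubring.valuation_lt_one_iff] at h'
  exact h'

/-! ### Congruences `x ≡ y` modulo the maximal ideal -/

/-! ### Residue characteristic -/

/-- Integers are integral at every place. -/
lemma valuation_intCast_le_one (A : ValuationSubring L) (n : ℤ) : A.valuation (n : L) ≤ 1 :=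
  (A.valuation_le_one_iff _).2 (intCast_mem A n)

/-- Natural numbers are integral at every place. -/
lemma valuation_natCast_le_one (A : ValuationSubring L) (n : ℕ) : A.valuation (n : L) ≤ 1 :=
  (A.valuation_le_one_iff _).2 (natCast_mem A n)

/-- An integer prime to `q` is a unit at a place over `q`. -/
lemma valuation_natCast_of_coprime {q m : ℕ} (hA : A.LiesOverPrime q) (hm : Nat.Coprime m q) :
    A.valuation (m : L) = 1 := by
  refine le_antisymm (valuation_natCast_le_one A m) (not_lt.1 fun hlt => ?_)
  have hbez : (m : L) * (m.gcdA q : L) + (q : L) * (m.gcdB q : L) = 1 := by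
    have h := congrArg (Int.cast : ℤ → L) (Nat.gcd_eq_gcd_ab m q)
    rw [hm.gcd_eq_one] at h
    push_cast at h
    exact h.symm
  have h1 : A.valuation ((m : L) * (m.gcdA q : L) + (q : L) * (m.gcdB q : L)) < 1 := by
    refine A.valuation.map_add_lt ?_ ?_
    · rw [map_mul]
      exact lt_of_le_of_lt (mul_le_of_le_one_right' (valuation_intCast_le_one A _)) hlt
    · rw [map_mul]
      exact lt_of_le_of_lt (mul_le_of_le_one_right' (valuation_intCast_le_one A _))
        (A.mem_nonunits_iff.1 hA)
  rw [hbez, map_one] at h1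
  exact lt_irrefl _ h1

/-! ### Wild inertia -/

lemma valuation_apply_eq_of_sub_lt {σ : L ≃ₐ[K] L} {x : L}
    (h : A.valuation (σ x - x) < A.valuation x) : A.valuation (σ x) = A.valuation x := by
  have := A.valuation.map_add_eq_of_lt_left (x := x) (y := σ x - x) h
  simpa using this

variable (K A) in
/-- The wild inertia subgroup: those `σ` which move every element by strictly less than its
absolute value. -/
def wildInertia : Subgroup (L ≃ₐ[K] L) where
  carrier := {σ | ∀ x : L, x ≠ 0 → A.valuation (σ x - x) < A.valuation x}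
  one_mem' x hx := by simpa [zero_lt_iff] using hx
  mul_mem' {σ τ} hσ hτ x hx := by
    have h1 : (σ * τ) x - x = σ (τ x - x) + (σ x - x) := by
      rw [AlgEquiv.mul_apply, map_sub]; ring
    rw [h1]
    refine A.valuation.map_add_lt ?_ (hσ x hx)
    rcases eq_or_ne (τ x - x) 0 with h0 | h0
    · rw [h0, map_zero, map_zero]; simpa [zero_lt_iff] using hx
    · rw [valuation_apply_eq_of_sub_lt (hσ _ h0)]; exact hτ x hx
  inv_mem' {σ} hσ x hx := by
    have hy : σ⁻¹ x ≠ 0 := by simpa using hx
    have h := hσ _ hy
    have e : σ (σ⁻¹ x) = x := σ.apply_symm_apply x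
    rw [← valuation_apply_eq_of_sub_lt h] at h
    rw [e] at h
    rwa [A.valuation.map_sub_swap] at h

/-- The definition of wild inertia. -/
lemma mem_wildInertia_iff {σ : L ≃ₐ[K] L} :
    σ ∈ wildInertia K A ↔ ∀ x : L, x ≠ 0 → A.valuation (σ x - x) < A.valuation x := Iff.rfl

/-- Wild inertia is contained in inertia. -/
lemma wildInertia_le_inertiaSubgroupIn :
    wildInertia K A ≤ A.inertiaSubgroupIn K := by
  intro σ hσ
  have hv : ∀ x, A.valuation (σ x) = A.valuation x := fun x => by
    rcases eq_or_ne x 0 with rfl | hx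
    · simp
    · exact valuation_apply_eq_of_sub_lt (hσ x hx)
  refine mem_inertiaSubgroupIn_iff.2 ⟨mem_decompositionSubgroup_iff.2 fun x => ?_, fun x hx => ?_⟩
  · rw [← A.valuation_le_one_iff, ← A.valuation_le_one_iff, hv]
  · rcases eq_or_ne x 0 with rfl | hx0
    · simp
    · exact lt_of_lt_of_le (hσ x hx0) ((A.valuation_le_one_iff x).2 hx)

end Fermat.Agent.LocalInertia
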