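import Mathlib.Data.Nat.Factorization.Basic
import Mathlib.RingTheory.IntegralDomain
import Mathlib.GroupTheory.Commutator.Basic
import Fermat.Agent.LocalInertia.Basic

/-!
# The tame character

`tameChar A x : A.inertiaSubgroupIn K →* (ResidueField A)ˣ` sends `σ` to the residue of `σ x / x`.
It is multiplicative in `x`, depends only on the valuation of `x`, its common kernel over all `x`
is the wild inertia subgroup, and a Frobenius element `φ` satisfies `θ (φ σ φ⁻¹) = θ σ ^ q`.
Consequently tame inertia is abelian. Wild inertia is pro-`q`.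
-/

set_option autoImplicit false

namespace Fermat.Agent.LocalInertia

open IsLocalRing
open scoped Pointwise


variable {K L : Type*} [Field K] [Field L] [Algebra K L] [Algebra.IsAlgebraic K L]
  {A : ValuationSubring L}

/-- Inertia preserves the valuation. -/
lemma valuation_apply_of_mem_inertia {σ : L ≃ₐ[K] L} (hσ : σ ∈ A.inertiaSubgroupIn K) (x : L) :
    A.valuation (σ x) = A.valuation x :=
  valuation_apply (inertiaSubgroupIn_le_decompositionSubgroup hσ) x

lemma valuation_apply_div_eq_one {σ : L ≃ₐ[K] L} (hσ : σ ∈ A.decompositionSubgroup K) {x : L}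
    (hx : x ≠ 0) : A.valuation (σ x / x) = 1 := by
  rw [map_div₀, valuation_apply hσ, div_self ((map_ne_zero _).2 hx)]

/-- The decomposition group moves elements by integral factors. -/
lemma apply_div_mem {σ : L ≃ₐ[K] L} (hσ : σ ∈ A.decompositionSubgroup K) (x : L) :
    σ x / x ∈ A := by
  rcases eq_or_ne x 0 with rfl | hx
  · simp
  · exact (A.valuation_le_one_iff _).1 (valuation_apply_div_eq_one hσ hx).le

variable (A) in
/-- The residue of `σ x / x`. -/
noncomputable def tameCharFun (x : Lˣ) (σ : A.inertiaSubgroupIn K) : ResidueField A :=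
  residue A ⟨(σ : L ≃ₐ[K] L) x / x,
    apply_div_mem (inertiaSubgroupIn_le_decompositionSubgroup σ.2) x⟩

/-- Congruent elements have equal residues. -/
lemma residue_eq_of_valuation_sub_lt {a b : A} (h : A.valuation ((a : L) - b) < 1) :
    residue A a = residue A b := by
  rw [← sub_eq_zero, ← map_sub, residue_eq_zero_iff, ValuationSubring.valuation_lt_one_iff]
  exact h

/-- Elements with equal residues are congruent. -/
lemma valuation_sub_lt_of_residue_eq {a b : A} (h : residue A a = residue A b) :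
    A.valuation ((a : L) - b) < 1 := by
  rw [← sub_eq_zero, ← map_sub, residue_eq_zero_iff, ValuationSubring.valuation_lt_one_iff] at h
  exact h

lemma tameCharFun_one (x : Lˣ) : tameCharFun A x (1 : A.inertiaSubgroupIn K) = 1 := by
  rw [tameCharFun, ← map_one (residue A)]
  congr 1
  ext
  simp

lemma tameCharFun_mul (x : Lˣ) (σ τ : A.inertiaSubgroupIn K) :
    tameCharFun A x (σ * τ) = tameCharFun A x σ * tameCharFun A x τ := by
  have hσ := (mem_inertiaSubgroupIn_iff.1 σ.2).2 _
    (apply_div_mem (inertiaSubgroupIn_le_decompositionSubgroup τ.2) (x : L))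
  have hm : (σ : L ≃ₐ[K] L) ((τ : L ≃ₐ[K] L) x / x) ∈ A :=
    (mem_decompositionSubgroup_iff.1 (inertiaSubgroupIn_le_decompositionSubgroup σ.2) _).2
      (apply_div_mem (inertiaSubgroupIn_le_decompositionSubgroup τ.2) (x : L))
  simp only [tameCharFun]
  have e : residue A ⟨_, apply_div_mem (inertiaSubgroupIn_le_decompositionSubgroup τ.2) (x : L)⟩ =
      residue A ⟨_, hm⟩ :=
    residue_eq_of_valuation_sub_lt (by rw [A.valuation.map_sub_swap]; exact hσ)
  rw [e, mul_comm, ← map_mul]
  congr 1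
  ext
  simp only [MulMemClass.coe_mul, AlgEquiv.mul_apply, map_div₀]
  have h1 : (σ : L ≃ₐ[K] L) x ≠ 0 := by simp
  field_simp

variable (A) in
/-- The tame character attached to `x`: `σ ↦ residue (σ x / x)`. -/
noncomputable def tameChar (x : Lˣ) : A.inertiaSubgroupIn K →* (ResidueField A)ˣ :=
  MonoidHom.toHomUnits
    { toFun := tameCharFun A x
      map_one' := tameCharFun_one x
      map_mul' := tameCharFun_mul x }

/-- The tame character is the residue of `σ x / x`. -/
lemma coe_tameChar (x : Lˣ) (σ : A.inertiaSubgroupIn K) :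
    (tameChar A x σ : ResidueField A) = residue A ⟨(σ : L ≃ₐ[K] L) x / x,
      apply_div_mem (inertiaSubgroupIn_le_decompositionSubgroup σ.2) x⟩ := rfl

/-- When the tame character is trivial. -/
lemma tameChar_eq_one_iff (x : Lˣ) (σ : A.inertiaSubgroupIn K) :
    tameChar A x σ = 1 ↔ A.valuation ((σ : L ≃ₐ[K] L) x - x) < A.valuation (x : L) := by
  have hx : (x : L) ≠ 0 := x.ne_zero
  have hx' : 0 < A.valuation (x : L) := by simp [zero_lt_iff]
  rw [← Units.val_inj, coe_tameChar, Units.val_one, ← map_one (residue A), ← sub_eq_zero,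
    ← map_sub, residue_eq_zero_iff, ValuationSubring.valuation_lt_one_iff]
  rw [← div_lt_one₀ hx', ← map_div₀]
  simp [sub_div]

lemma tameChar_mul_left (x y : Lˣ) (σ : A.inertiaSubgroupIn K) :
    tameChar A (x * y) σ = tameChar A x σ * tameChar A y σ := by
  ext
  rw [Units.val_mul, coe_tameChar, coe_tameChar, coe_tameChar, ← map_mul]
  congr 1
  ext
  simp [mul_div_mul_comm]

lemma tameChar_one_left (σ : A.inertiaSubgroupIn K) : tameChar A (1 : Lˣ) σ = 1 := by
  ext
  rw [Units.val_one, coe_tameChar, ← map_one (residue A)]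
  congr 1
  ext
  simp

/-- The tame character is multiplicative in the radicand. -/
lemma tameChar_pow_left (x : Lˣ) (n : ℕ) (σ : A.inertiaSubgroupIn K) :
    tameChar A (x ^ n) σ = tameChar A x σ ^ n := by
  induction n with
  | zero => simp [tameChar_one_left]
  | succ n ih => rw [pow_succ, tameChar_mul_left, ih, pow_succ]

/-- The tame character is multiplicative in integral powers of the radicand. -/
lemma tameChar_zpow_left (x : Lˣ) (n : ℤ) (σ : A.inertiaSubgroupIn K) :
    tameChar A (x ^ n) σ = tameChar A x σ ^ n :=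
  map_zpow (MonoidHom.mk' (fun z : Lˣ => tameChar A z σ) (fun a b => tameChar_mul_left a b σ)) x n

lemma tameChar_of_valuation_eq_one (x : Lˣ) (hx : A.valuation (x : L) = 1)
    (σ : A.inertiaSubgroupIn K) : tameChar A x σ = 1 := by
  rw [tameChar_eq_one_iff, hx]
  exact (mem_inertiaSubgroupIn_iff.1 σ.2).2 _ ((A.valuation_le_one_iff _).1 hx.le)

/-- The tame character only depends on the valuation of the radicand. -/
lemma tameChar_congr (x y : Lˣ) (hxy : A.valuation (x : L) = A.valuation (y : L))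
    (σ : A.inertiaSubgroupIn K) : tameChar A x σ = tameChar A y σ := by
  have h : A.valuation ((x / y : Lˣ) : L) = 1 := by
    rw [Units.val_div_eq_div_val, map_div₀, hxy, div_self ((map_ne_zero _).2 y.ne_zero)]
  conv_lhs => rw [show x = x / y * y from (div_mul_cancel x y).symm]
  rw [tameChar_mul_left, tameChar_of_valuation_eq_one _ h, one_mul]

lemma mem_wildInertia_iff_tameChar (σ : A.inertiaSubgroupIn K) :
    (σ : L ≃ₐ[K] L) ∈ wildInertia K A ↔ ∀ x : Lˣ, tameChar A x σ = 1 := by
  simp only [mem_wildInertia_iff, tameChar_eq_one_iff]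
  exact ⟨fun h x => h x x.ne_zero, fun h x hx => h (Units.mk0 x hx)⟩

/-- The inertia subgroup is normal in the decomposition subgroup. -/
lemma conj_mem_inertiaSubgroupIn {φ σ : L ≃ₐ[K] L} (hφ : φ ∈ A.decompositionSubgroup K)
    (hσ : σ ∈ A.inertiaSubgroupIn K) : φ * σ * φ⁻¹ ∈ A.inertiaSubgroupIn K := by
  obtain ⟨hσD, h⟩ := mem_inertiaSubgroupIn_iff.1 hσ
  refine mem_inertiaSubgroupIn_iff.2 ⟨mul_mem (mul_mem hφ hσD) (inv_mem hφ), fun x hx => ?_⟩
  have hy : φ⁻¹ x ∈ A := (mem_decompositionSubgroup_iff.1 (inv_mem hφ) x).2 hx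
  have e : φ (φ⁻¹ x) = x := φ.apply_symm_apply x
  have e' : (φ * σ * φ⁻¹) x - x = φ (σ (φ⁻¹ x) - φ⁻¹ x) := by
    rw [map_sub, e, AlgEquiv.mul_apply, AlgEquiv.mul_apply]
  rw [e', valuation_apply hφ]
  exact h _ hy

/-- Frobenius acts on tame inertia as the `q`-th power map. -/
lemma tameChar_conj {φ : L ≃ₐ[K] L} {q : ℕ} (hφ : A.IsFrobeniusAt φ q) (x : Lˣ)
    (σ : A.inertiaSubgroupIn K) :
    tameChar A x ⟨φ * (σ : L ≃ₐ[K] L) * φ⁻¹,
      conj_mem_inertiaSubgroupIn hφ.mem_decompositionSubgroup σ.2⟩ =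
      tameChar A x σ ^ q := by
  have hy0 : φ⁻¹ (x : L) ≠ 0 := by simp
  let y : Lˣ := Units.mk0 _ hy0
  have hy : A.valuation (y : L) = A.valuation (x : L) :=
    valuation_apply (inv_mem hφ.mem_decompositionSubgroup) (x : L)
  rw [← tameChar_congr y x hy σ]
  ext
  rw [Units.val_pow_eq_pow_val, coe_tameChar, coe_tameChar, ← map_pow]
  apply residue_eq_of_valuation_sub_lt
  rw [SubmonoidClass.coe_pow]
  have e : φ (φ⁻¹ (x : L)) = x := φ.apply_symm_apply _
  have e' : (φ * (σ : L ≃ₐ[K] L) * φ⁻¹) (x : L) / x = φ ((σ : L ≃ₐ[K] L) (y : L) / y) := by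
    rw [map_div₀, show φ (y : L) = x from e]
    rfl
  change A.valuation ((φ * (σ : L ≃ₐ[K] L) * φ⁻¹) (x : L) / x - _) < 1
  rw [e']
  exact isFrobeniusAt_valuation_lt hφ
    (apply_div_mem (inertiaSubgroupIn_le_decompositionSubgroup σ.2) (y : L))

/-- `φ σ φ⁻¹ ≡ σ ^ q` modulo wild inertia. -/
lemma conj_mul_pow_inv_mem_wildInertia {φ σ : L ≃ₐ[K] L} {q : ℕ} (hφ : A.IsFrobeniusAt φ q)
    (hσ : σ ∈ A.inertiaSubgroupIn K) : φ * σ * φ⁻¹ * (σ ^ q)⁻¹ ∈ wildInertia K A := by
  have hc := conj_mem_inertiaSubgroupIn hφ.mem_decompositionSubgroup hσ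
  have h := (mem_wildInertia_iff_tameChar
    ((⟨φ * σ * φ⁻¹, hc⟩ : A.inertiaSubgroupIn K) * ((⟨σ, hσ⟩ : A.inertiaSubgroupIn K) ^ q)⁻¹)).2
  simp only [Subgroup.coe_mul, Subgroup.coe_inv, SubmonoidClass.coe_pow] at h
  refine h fun x => ?_
  rw [map_mul, map_inv, map_pow, ← tameChar_conj hφ x ⟨σ, hσ⟩, mul_inv_cancel]

omit [Algebra.IsAlgebraic K L] in
/-- If `τ` has period `m` prime to the residue characteristic on a `τ`-stable subset and moves
every element of it by strictly less than its absolute value, then it is trivial there. -/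
lemma apply_eq_self_of_pow_apply_eq_self {q m : ℕ} (hA : A.LiesOverPrime q)
    (hm : Nat.Coprime m q) (hm0 : (m : L) ≠ 0) (τ : L ≃ₐ[K] L) (F : Subfield L)
    (hF : ∀ y ∈ F, τ y ∈ F)
    (hτ : ∀ y ∈ F, y ≠ 0 → A.valuation (τ y - y) < A.valuation y)
    {x : L} (hxF : x ∈ F) (hx : (τ ^ m) x = x) : τ x = x := by
  have hFpow : ∀ i, ∀ y ∈ F, (τ ^ i) y ∈ F := fun i => by
    induction i with
    | zero => intro y hy; simpa using hy
    | succ i ih => intro y hy; rw [pow_succ', AlgEquiv.mul_apply]; exact hF _ (ih y hy)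
  set s : L := ∑ i ∈ Finset.range m, (τ ^ i) x with hs
  have hsfix : τ s = s := by
    have h1 : τ s = ∑ i ∈ Finset.range m, (τ ^ (i + 1)) x := by
      rw [hs, map_sum]
      exact Finset.sum_congr rfl fun i _ => by rw [pow_succ', AlgEquiv.mul_apply]
    have h2 : ∑ i ∈ Finset.range (m + 1), (τ ^ i) x = s + (τ ^ m) x := Finset.sum_range_succ _ _
    have h3 : ∑ i ∈ Finset.range (m + 1), (τ ^ i) x =
        (∑ i ∈ Finset.range m, (τ ^ (i + 1)) x) + (τ ^ 0) x := Finset.sum_range_succ' _ _
    rw [h3, ← h1, hx, pow_zero, AlgEquiv.one_apply] at h2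
    exact add_right_cancel h2
  have hfix : ∀ i, (τ ^ i) s = s := fun i => by
    induction i with
    | zero => simp
    | succ i ih => rw [pow_succ', AlgEquiv.mul_apply, ih, hsfix]
  set z : L := (m : L) * x - s with hz
  have hzF : z ∈ F := sub_mem (mul_mem (natCast_mem F m) hxF) (sum_mem fun i _ => hFpow i x hxF)
  have hz0 : z = 0 := by
    by_contra hz0
    have hτi : ∀ i, A.valuation ((τ ^ i) z - z) < A.valuation z := fun i => by
      induction i with
      | zero => simpa [zero_lt_iff] using hz0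
      | succ i ih =>
        rw [pow_succ', AlgEquiv.mul_apply]
        have e : τ ((τ ^ i) z) - z = (τ ((τ ^ i) z) - (τ ^ i) z) + ((τ ^ i) z - z) := by ring
        rw [e]
        refine A.valuation.map_add_lt ?_ ih
        have hne : (τ ^ i) z ≠ 0 := (map_ne_zero (τ ^ i)).2 hz0
        refine (hτ _ (hFpow i z hzF) hne).trans_le ?_
        have := A.valuation.map_add_eq_of_lt_left ih
        rw [add_sub_cancel] at this
        exact this.le
    have hsum : ∑ i ∈ Finset.range m, ((τ ^ i) z - z) = -((m : L) * z) := by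
      rw [Finset.sum_sub_distrib, Finset.sum_const, Finset.card_range, nsmul_eq_mul]
      have : ∑ i ∈ Finset.range m, (τ ^ i) z = 0 := by
        simp only [hz, map_sub, map_mul, map_natCast, hfix, Finset.sum_sub_distrib,
          ← Finset.mul_sum, Finset.sum_const, Finset.card_range, nsmul_eq_mul, ← hs]
        ring
      rw [this, zero_sub]
    have := A.valuation.map_sum_lt (s := Finset.range m) (f := fun i => (τ ^ i) z - z)
      ((map_ne_zero A.valuation).2 hz0) (fun i _ => hτi i)
    rw [hsum, Valuation.map_neg, map_mul, valuation_natCast_of_coprime hA hm, one_mul] at this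
    exact lt_irrefl _ this
  have hx' : (m : L) * x = s := sub_eq_zero.1 hz0
  have := congrArg τ hx'
  rw [map_mul, map_natCast, hsfix, ← hx'] at this
  exact mul_left_cancel₀ hm0 this

/-- Wild inertia is pro-`q`, elementwise version on a stable subfield. -/
lemma exists_qpow_apply_eq_self [CharZero L] {q : ℕ} (hq : q.Prime) (hA : A.LiesOverPrime q)
    (σ : L ≃ₐ[K] L) (F : Subfield L) (hF : ∀ y ∈ F, σ y ∈ F)
    (hσ : ∀ y ∈ F, y ≠ 0 → A.valuation (σ y - y) < A.valuation y) {x : L} (hxF : x ∈ F) :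
    ∃ k : ℕ, (σ ^ (q ^ k)) x = x := by
  obtain ⟨n, hn, hnx⟩ := exists_pow_apply_eq_self σ x
  obtain ⟨k, m, hqm, rfl⟩ := Nat.exists_eq_pow_mul_and_not_dvd hn.ne' q hq.ne_one
  refine ⟨k, ?_⟩
  have hm0 : (m : L) ≠ 0 := by
    rw [Nat.cast_ne_zero]
    rintro rfl
    simp at hqm
  have hFpow : ∀ i, ∀ y ∈ F, (σ ^ i) y ∈ F := fun i => by
    induction i with
    | zero => intro y hy; simpa using hy
    | succ i ih => intro y hy; rw [pow_succ', AlgEquiv.mul_apply]; exact hF _ (ih y hy)
  refine apply_eq_self_of_pow_apply_eq_self hA ((hq.coprime_iff_not_dvd.2 hqm).symm) hm0 _ F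
    (hFpow _) ?_ hxF ?_
  · intro y hy hy0
    have : ∀ i, A.valuation ((σ ^ i) y - y) < A.valuation y := fun i => by
      induction i with
      | zero => simpa [zero_lt_iff] using hy0
      | succ i ih =>
        rw [pow_succ', AlgEquiv.mul_apply]
        have e : σ ((σ ^ i) y) - y = (σ ((σ ^ i) y) - (σ ^ i) y) + ((σ ^ i) y - y) := by ring
        rw [e]
        refine A.valuation.map_add_lt ?_ ih
        have hne : (σ ^ i) y ≠ 0 := (map_ne_zero (σ ^ i)).2 hy0
        refine (hσ _ (hFpow i y hy) hne).trans_le ?_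
        have := A.valuation.map_add_eq_of_lt_left ih
        rw [add_sub_cancel] at this
        exact this.le
    exact this _
  · rwa [← pow_mul]

/-- Wild inertia is pro-`q`, elementwise version. -/
lemma exists_qpow_apply_eq_self_of_mem_wildInertia [CharZero L] {q : ℕ} (hq : q.Prime)
    (hA : A.LiesOverPrime q) {σ : L ≃ₐ[K] L} (hσ : σ ∈ wildInertia K A) (x : L) :
    ∃ k : ℕ, (σ ^ (q ^ k)) x = x :=
  exists_qpow_apply_eq_self hq hA σ ⊤ (fun _ _ => Subfield.mem_top _) (fun y _ hy => hσ y hy)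
    (Subfield.mem_top x)

end Fermat.Agent.LocalInertia
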