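import Mathlib.FieldTheory.Normal.Basic
import Mathlib.RingTheory.ZMod.UnitsCyclic
import Mathlib.GroupTheory.SpecificGroups.Cyclic
import Fermat.Agent.LocalInertia.Tame

/-!
# Finite-level consequences of the structure of inertia

For a homomorphism out of the Galois group which factors through a finite level: wild inertia
maps to elements of `q`-power order, a character which extends to the decomposition group
kills `σ ^ ((q - 1) * q ^ k)` for every inertia element `σ`.
-/

set_option autoImplicit false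

namespace Fermat.Agent.LocalInertia

open IsLocalRing
open scoped Pointwise

variable {K L : Type*} [Field K] [Field L] [Algebra K L] [Algebra.IsAlgebraic K L]
  {A : ValuationSubring L}

omit [Algebra.IsAlgebraic K L] in
lemma pow_apply_eq_self_of_dvd {σ : L ≃ₐ[K] L} {x : L} {a b : ℕ} (hab : a ∣ b)
    (ha : (σ ^ a) x = x) : (σ ^ b) x = x := by
  obtain ⟨c, rfl⟩ := hab
  rw [pow_mul]
  induction c with
  | zero => simp
  | succ c ih => rw [pow_succ, AlgEquiv.mul_apply, ha, ih]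

/-- Wild inertia is pro-`q`: uniform version on a finite extension `F`, stable under `σ`. -/
lemma exists_qpow_fix_of_stable [CharZero L] {q : ℕ} (hq : q.Prime) (hA : A.LiesOverPrime q)
    (F : IntermediateField K L) [FiniteDimensional K F] (σ : L ≃ₐ[K] L)
    (hF : ∀ y ∈ F, σ y ∈ F)
    (hσ : ∀ y ∈ F, y ≠ 0 → A.valuation (σ y - y) < A.valuation y) :
    ∃ k : ℕ, ∀ x ∈ F, (σ ^ (q ^ k)) x = x := by
  let b := Module.finBasis K F
  choose k hk using fun i => exists_qpow_apply_eq_self hq hA σ F.toSubfield hF hσ (b i).2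
  refine ⟨Finset.univ.sup k, fun x hx => ?_⟩
  have h : ((σ ^ q ^ Finset.univ.sup k : L ≃ₐ[K] L).toLinearMap ∘ₗ F.val.toLinearMap) =
      F.val.toLinearMap :=
    b.ext fun i =>
      pow_apply_eq_self_of_dvd (pow_dvd_pow q (Finset.le_sup (Finset.mem_univ i))) (hk i)
  exact LinearMap.congr_fun h ⟨x, hx⟩

/-- Wild inertia is pro-`q`: uniform version on a finite extension `F`. -/
lemma exists_qpow_fix [CharZero L] {q : ℕ} (hq : q.Prime) (hA : A.LiesOverPrime q)
    (F : IntermediateField K L) [FiniteDimensional K F] {σ : L ≃ₐ[K] L}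
    (hσ : σ ∈ wildInertia K A) : ∃ k : ℕ, ∀ x ∈ F, (σ ^ (q ^ k)) x = x := by
  let b := Module.finBasis K F
  choose k hk using fun i => exists_qpow_apply_eq_self_of_mem_wildInertia hq hA hσ (b i : L)
  refine ⟨Finset.univ.sup k, fun x hx => ?_⟩
  have h : ((σ ^ q ^ Finset.univ.sup k : L ≃ₐ[K] L).toLinearMap ∘ₗ F.val.toLinearMap) =
      F.val.toLinearMap :=
    b.ext fun i =>
      pow_apply_eq_self_of_dvd (pow_dvd_pow q (Finset.le_sup (Finset.mem_univ i))) (hk i)
  exact LinearMap.congr_fun h ⟨x, hx⟩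

section Hom

variable [CharZero L] {q : ℕ} {M : Type*} [Monoid M] (f : (L ≃ₐ[K] L) →* M)

/-- Under a finite-level homomorphism wild inertia has `q`-power order. -/
lemma exists_map_wild_pow_eq_one (hq : q.Prime) (hA : A.LiesOverPrime q)
    (hf : ∃ F : IntermediateField K L, FiniteDimensional K F ∧
      ∀ σ : L ≃ₐ[K] L, (∀ x ∈ F, σ x = x) → f σ = 1)
    {σ : L ≃ₐ[K] L} (hσ : σ ∈ wildInertia K A) : ∃ k : ℕ, f σ ^ (q ^ k) = 1 := by
  obtain ⟨F, hF, hf⟩ := hf
  obtain ⟨k, hk⟩ := exists_qpow_fix hq hA F hσ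
  exact ⟨k, by rw [← map_pow]; exact hf _ hk⟩

/-- A finite-level homomorphism to a monoid in which `1` is the only element of `q`-power order
kills wild inertia. -/
lemma map_wild_eq_one (hq : q.Prime) (hA : A.LiesOverPrime q)
    (hf : ∃ F : IntermediateField K L, FiniteDimensional K F ∧
      ∀ σ : L ≃ₐ[K] L, (∀ x ∈ F, σ x = x) → f σ = 1)
    {σ : L ≃ₐ[K] L} (hσ : σ ∈ wildInertia K A)
    (hord : Nat.Coprime (orderOf (f σ)) q) : f σ = 1 := by
  obtain ⟨k, hk⟩ := exists_map_wild_pow_eq_one f hq hA hf hσ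
  exact orderOf_eq_one_iff.1 (Nat.eq_one_of_dvd_coprimes (hord.pow_right k) dvd_rfl
    (orderOf_dvd_of_pow_eq_one hk))

/-- `f (φ σ φ⁻¹) = f σ ^ q` up to an element of `q`-power order. -/
lemma exists_map_conj_eq (hq : q.Prime) (hA : A.LiesOverPrime q)
    (hf : ∃ F : IntermediateField K L, FiniteDimensional K F ∧
      ∀ σ : L ≃ₐ[K] L, (∀ x ∈ F, σ x = x) → f σ = 1)
    {φ σ : L ≃ₐ[K] L} (hφ : A.IsFrobeniusAt φ q) (hσ : σ ∈ A.inertiaSubgroupIn K) :
    ∃ (w : L ≃ₐ[K] L) (k : ℕ), w ∈ wildInertia K A ∧ f w ^ (q ^ k) = 1 ∧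
      f (φ * σ * φ⁻¹) = f w * f σ ^ q := by
  obtain ⟨k, hk⟩ := exists_map_wild_pow_eq_one f hq hA hf
    (conj_mul_pow_inv_mem_wildInertia hφ hσ)
  refine ⟨_, k, conj_mul_pow_inv_mem_wildInertia hφ hσ, hk, ?_⟩
  rw [← map_pow, ← map_mul, inv_mul_cancel_right]

end Hom

section CommHom

variable [CharZero L] {q : ℕ} {M : Type*} [CommGroup M] (f : (L ≃ₐ[K] L) →* M)

end CommHom

end Fermat.Agent.LocalInertia
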