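import Mathlib.FieldTheory.Minpoly.Field
import Mathlib.FieldTheory.IntermediateField.Algebraic
import Mathlib.RingTheory.IntegralDomain
import Mathlib.GroupTheory.Archimedean
import Fermat.Agent.LocalInertia.FiniteLevel

/-!
# Discreteness of the valuation on finite extensions of `ℚ`, and cyclicity of tame inertia

A finite subextension has a uniformiser (`exists_uniformizer`); if it is normal, inertia acts on
it through a single element up to elements of `q`-power order (`exists_inertia_generator`).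
-/

set_option autoImplicit false

namespace Fermat.Agent.LocalInertia

open IsLocalRing
open scoped Pointwise

variable {L : Type*} [Field L] [CharZero L] {A : ValuationSubring L} {q : ℕ}

omit [CharZero L] in
lemma exists_valuation_natCast_eq_pow (hq : q.Prime) (hA : A.LiesOverPrime q) {n : ℕ}
    (hn : n ≠ 0) : ∃ e : ℕ, A.valuation (n : L) = A.valuation (q : L) ^ e := by
  obtain ⟨e, m, hm, rfl⟩ := Nat.exists_eq_pow_mul_and_not_dvd hn q hq.ne_one
  refine ⟨e, ?_⟩
  rw [Nat.cast_mul, map_mul, Nat.cast_pow, map_pow,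
    valuation_natCast_of_coprime hA (hq.coprime_iff_not_dvd.2 hm).symm, mul_one]

/-- The valuation of a rational number is a power of that of `q`. -/
lemma exists_valuation_ratCast_eq_zpow (hq : q.Prime) (hA : A.LiesOverPrime q) {c : ℚ}
    (hc : c ≠ 0) : ∃ j : ℤ, A.valuation (c : L) = A.valuation (q : L) ^ j := by
  obtain ⟨a, ha⟩ := exists_valuation_natCast_eq_pow hq hA
    (Int.natAbs_ne_zero.2 (Rat.num_ne_zero.2 hc))
  obtain ⟨b, hb⟩ := exists_valuation_natCast_eq_pow hq hA c.den_nz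
  refine ⟨(a : ℤ) - b, ?_⟩
  have hnum : A.valuation ((c.num : ℤ) : L) = A.valuation ((c.num.natAbs : ℕ) : L) := by
    rcases Int.natAbs_eq c.num with h | h
    · conv_lhs => rw [h, Int.cast_natCast]
    · conv_lhs => rw [h, Int.cast_neg, Int.cast_natCast, Valuation.map_neg]
  rw [Rat.cast_def, map_div₀, hnum, ha, hb,
    zpow_sub₀ ((map_ne_zero A.valuation).2 (Nat.cast_ne_zero.2 hq.ne_zero)), zpow_natCast,
    zpow_natCast]

variable [Algebra ℚ L]

/-- The valuation of an element of degree `≤ d` has `d!`-th power in the value group of `ℚ`. -/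
lemma exists_valuation_pow_factorial (hq : q.Prime) (hA : A.LiesOverPrime q)
    (F : IntermediateField ℚ L) [FiniteDimensional ℚ F] {x : L} (hxF : x ∈ F) (hx0 : x ≠ 0) :
    ∃ j : ℤ, A.valuation x ^ (Module.finrank ℚ F).factorial = A.valuation (q : L) ^ j := by
  let : Algebra ℚ F := F.algebra'
  have hint : IsIntegral ℚ (⟨x, hxF⟩ : F) := IsIntegral.of_finite ℚ _
  set p := minpoly ℚ (⟨x, hxF⟩ : F) with hpdef
  have hdeg : p.natDegree ≤ Module.finrank ℚ F := minpoly.natDegree_le _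
  have hp0 : p ≠ 0 := minpoly.ne_zero hint
  have hsum : ∑ i ∈ p.support, (p.coeff i : L) * x ^ i = 0 := by
    have h : Polynomial.aeval x p = 0 := by
      have := congrArg F.val (minpoly.aeval ℚ (⟨x, hxF⟩ : F))
      rw [← Polynomial.aeval_algHom_apply, map_zero] at this
      exact this
    rw [Polynomial.aeval_def, Polynomial.eval₂_eq_sum, Polynomial.sum_def] at h
    simpa [Rat.smul_def, eq_ratCast] using h
  have hne : p.support.Nonempty := Polynomial.support_nonempty.2 hp0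
  obtain ⟨i, hi, hmax⟩ := p.support.exists_max_image
    (fun i => A.valuation ((p.coeff i : L) * x ^ i)) hne
  have hterm : ∀ k ∈ p.support, A.valuation ((p.coeff k : L) * x ^ k) ≠ 0 := fun k hk =>
    (map_ne_zero A.valuation).2
      (mul_ne_zero (Rat.cast_ne_zero.2 (Polynomial.mem_support_iff.1 hk)) (pow_ne_zero _ hx0))
  obtain ⟨j, hj, hji, heq⟩ : ∃ j ∈ p.support, j ≠ i ∧
      A.valuation ((p.coeff j : L) * x ^ j) = A.valuation ((p.coeff i : L) * x ^ i) := by
    by_contra! hcon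
    have h := A.valuation.map_sum_eq_of_lt (s := p.support)
      (f := fun k => (p.coeff k : L) * x ^ k) (j := i) hi (fun k hk => by
        simp only [Finset.mem_sdiff, Finset.mem_singleton] at hk
        exact lt_of_le_of_ne (hmax k hk.1) (hcon k hk.1 hk.2))
    rw [hsum, map_zero] at h
    exact hterm i hi h.symm
  obtain ⟨a, ha⟩ := exists_valuation_ratCast_eq_zpow hq hA (Polynomial.mem_support_iff.1 hi)
  obtain ⟨b, hb⟩ := exists_valuation_ratCast_eq_zpow hq hA (Polynomial.mem_support_iff.1 hj)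
  rw [map_mul, map_mul, map_pow, map_pow, ha, hb] at heq
  have hv : A.valuation x ≠ 0 := (map_ne_zero A.valuation).2 hx0
  have hq0 : A.valuation (q : L) ≠ 0 :=
    (map_ne_zero A.valuation).2 (Nat.cast_ne_zero.2 hq.ne_zero)
  have key : A.valuation x ^ ((j : ℤ) - i) = A.valuation (q : L) ^ (a - b) := by
    rw [zpow_sub₀ hv, zpow_sub₀ hq0, div_eq_div_iff (zpow_ne_zero _ hv) (zpow_ne_zero _ hq0),
      zpow_natCast, zpow_natCast, mul_comm, heq]
  have hdvd : ((j : ℤ) - i) ∣ ((Module.finrank ℚ F).factorial : ℤ) := by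
    rw [← Int.natAbs_dvd, Int.natCast_dvd_natCast]
    have h1 : i ≤ p.natDegree := Polynomial.le_natDegree_of_mem_supp _ hi
    have h2 : j ≤ p.natDegree := Polynomial.le_natDegree_of_mem_supp _ hj
    exact Nat.dvd_factorial (by omega) (by omega)
  obtain ⟨c, hc⟩ := hdvd
  exact ⟨(a - b) * c, by rw [zpow_mul, ← key, ← zpow_mul, ← hc, zpow_natCast]⟩

/-- A finite extension of `ℚ` has a uniformiser for the restriction of `A`. -/
lemma exists_uniformizer (hq : q.Prime) (hA : A.LiesOverPrime q)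
    (F : IntermediateField ℚ L) [FiniteDimensional ℚ F] :
    ∃ π : Lˣ, (π : L) ∈ F ∧ ∀ x : L, x ∈ F → x ≠ 0 →
      ∃ j : ℤ, A.valuation x = A.valuation (π : L) ^ j := by
  set N := (Module.finrank ℚ F).factorial with hN
  let S : AddSubgroup ℤ :=
    { carrier := {j | ∃ x : L, x ∈ F ∧ x ≠ 0 ∧ A.valuation x ^ N = A.valuation (q : L) ^ j}
      zero_mem' := ⟨1, F.one_mem, one_ne_zero, by simp⟩
      add_mem' := by
        rintro a b ⟨x, hxF, hx0, hx⟩ ⟨y, hyF, hy0, hy⟩
        exact ⟨x * y, F.mul_mem hxF hyF, mul_ne_zero hx0 hy0, by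
          rw [map_mul, mul_pow, hx, hy,
            zpow_add₀ ((map_ne_zero A.valuation).2 (Nat.cast_ne_zero.2 hq.ne_zero))]⟩
      neg_mem' := by
        rintro a ⟨x, hxF, hx0, hx⟩
        exact ⟨x⁻¹, F.inv_mem hxF, inv_ne_zero hx0, by rw [map_inv₀, inv_pow, hx, zpow_neg]⟩ }
  obtain ⟨g, hg⟩ := Int.subgroup_cyclic S
  have hgS : g ∈ S := hg ▸ AddSubgroup.subset_closure rfl
  obtain ⟨π, hπF, hπ0, hπ⟩ := hgS
  refine ⟨Units.mk0 π hπ0, hπF, fun x hxF hx0 => ?_⟩
  obtain ⟨j, hj⟩ := exists_valuation_pow_factorial hq hA F hxF hx0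
  have hjS : j ∈ S := ⟨x, hxF, hx0, hj⟩
  rw [hg, AddSubgroup.mem_closure_singleton] at hjS
  obtain ⟨c, rfl⟩ := hjS
  refine ⟨c, ?_⟩
  have hN0 : N ≠ 0 := Nat.factorial_ne_zero _
  apply (pow_left_inj₀ zero_le zero_le hN0).1
  calc A.valuation x ^ N = A.valuation (q : L) ^ (g * c) := by rw [hj, smul_eq_mul, mul_comm]
    _ = (A.valuation π ^ N) ^ c := by rw [hπ, zpow_mul]
    _ = (A.valuation π ^ c) ^ N := by
      rw [← zpow_natCast, ← zpow_natCast (A.valuation π ^ c), ← zpow_mul, ← zpow_mul, mul_comm]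

variable [Algebra.IsAlgebraic ℚ L]

omit [CharZero L] in
/-- An element of the decomposition group acting trivially on the tame character of a uniformiser
of `F` moves the elements of `F` by strictly less than their absolute value. -/
lemma valuation_sub_lt_of_tameChar_uniformizer {F : IntermediateField ℚ L} {π : Lˣ}
    (hπ : ∀ x : L, x ∈ F → x ≠ 0 → ∃ j : ℤ, A.valuation x = A.valuation (π : L) ^ j)
    (σ : A.inertiaSubgroupIn ℚ) (hσ : tameChar A π σ = 1) {x : L} (hxF : x ∈ F) (hx0 : x ≠ 0) :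
    A.valuation ((σ : L ≃ₐ[ℚ] L) x - x) < A.valuation x := by
  obtain ⟨j, hj⟩ := hπ x hxF hx0
  refine (tameChar_eq_one_iff (Units.mk0 x hx0) σ).1 ?_
  have hv : A.valuation ((Units.mk0 x hx0 : Lˣ) : L) = A.valuation ((π ^ j : Lˣ) : L) := by
    rw [Units.val_zpow_eq_zpow_val, map_zpow₀, Units.val_mk0, hj]
  rw [tameChar_congr _ _ hv, tameChar_zpow_left, hσ, one_zpow]

/-- Tame inertia is cyclic at every finite level: there is a `σ₀` in inertia such that every
element of inertia is, on `F`, a power of `σ₀` times an element of `q`-power order. -/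
lemma exists_inertia_generator (hq : q.Prime) (hA : A.LiesOverPrime q)
    (F : IntermediateField ℚ L) [FiniteDimensional ℚ F] [Normal ℚ F] :
    ∃ σ₀ ∈ A.inertiaSubgroupIn ℚ, ∀ σ ∈ A.inertiaSubgroupIn ℚ, ∃ j k : ℕ,
      ∀ x ∈ F, (((σ₀ ^ j)⁻¹ * σ) ^ (q ^ k)) x = x := by
  obtain ⟨π, hπF, hπ⟩ := exists_uniformizer hq hA F
  let θ := tameChar (K := ℚ) A π
  have hfin : (Set.range θ).Finite := by
    let T : Set L := (fun y => y / (π : L)) '' ((minpoly ℚ (π : L)).rootSet L)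
    have hT : T.Finite := ((minpoly ℚ (π : L)).rootSet_finite L).image _
    refine (((hT.preimage (f := ((↑) : A → L)) Subtype.val_injective.injOn).image
      (residue A)).preimage (f := Units.val) Units.val_injective.injOn).subset ?_
    rintro _ ⟨σ, rfl⟩
    refine ⟨⟨(σ : L ≃ₐ[ℚ] L) π / π,
      apply_div_mem (inertiaSubgroupIn_le_decompositionSubgroup σ.2) π⟩, ?_, rfl⟩
    refine ⟨(σ : L ≃ₐ[ℚ] L) π, ?_, rfl⟩
    rw [Polynomial.mem_rootSet]
    exact ⟨minpoly.ne_zero (Algebra.IsAlgebraic.isAlgebraic _).isIntegral,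
      by rw [Polynomial.aeval_algHom_apply, minpoly.aeval, map_zero]⟩
  have : Finite θ.range := hfin.to_subtype
  have hcyc : IsCyclic θ.range := inferInstance
  obtain ⟨⟨g, σ₀, rfl⟩, hg⟩ := hcyc.exists_zpow_surjective
  refine ⟨σ₀, σ₀.2, fun σ hσ => ?_⟩
  obtain ⟨j, hj⟩ := hg ⟨θ ⟨σ, hσ⟩, ⟨σ, hσ⟩, rfl⟩
  have hj' : θ σ₀ ^ j = θ ⟨σ, hσ⟩ := congrArg Subtype.val hj
  have hfo : IsOfFinOrder (θ σ₀) :=
    θ.range.subtype.isOfFinOrder (isOfFinOrder_of_finite (⟨θ σ₀, σ₀, rfl⟩ : θ.range))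
  obtain ⟨n, hn⟩ := (hfo.mem_powers_iff_mem_zpowers).2 ⟨j, rfl⟩
  have hn' : θ σ₀ ^ n = θ ⟨σ, hσ⟩ := hn.trans hj'
  have hτ : θ ((σ₀ ^ n)⁻¹ * ⟨σ, hσ⟩) = 1 := by rw [map_mul, map_inv, map_pow, hn', inv_mul_cancel]
  have hF : ∀ y ∈ F, (((σ₀ : L ≃ₐ[ℚ] L) ^ n)⁻¹ * σ) y ∈ F := fun y hy => by
    have h := AlgEquiv.restrictNormal_commutes (((σ₀ : L ≃ₐ[ℚ] L) ^ n)⁻¹ * σ) F ⟨y, hy⟩
    exact (show _ = (((σ₀ : L ≃ₐ[ℚ] L) ^ n)⁻¹ * σ) y from h) ▸ SetLike.coe_mem _
  have hlt : ∀ y ∈ F, y ≠ 0 →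
      A.valuation ((((σ₀ : L ≃ₐ[ℚ] L) ^ n)⁻¹ * σ) y - y) < A.valuation y := fun y hy hy0 => by
    simpa only [Subgroup.coe_mul, Subgroup.coe_inv, SubmonoidClass.coe_pow] using
      valuation_sub_lt_of_tameChar_uniformizer hπ _ hτ hy hy0
  obtain ⟨k, hk⟩ := exists_qpow_fix_of_stable hq hA F _ hF hlt
  exact ⟨n, k, hk⟩

end Fermat.Agent.LocalInertia
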