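import Mathlib.FieldTheory.Normal.Basic
import Mathlib.NumberTheory.RamificationInertia.Galois
import Mathlib.RingTheory.RootsOfUnity.PrimitiveRoots
import Fermat.Agent.GaloisBasics.Finite
import Fermat.Agent.GaloisBasics.Roots

/-!
# Tame Kummer extensions are totally ramified

At a place over `q`, for `m` prime to `q` and `x ^ m = q`, inertia moves `x` to every `ζ x`.
-/

set_option autoImplicit false

open scoped Pointwise NumberField
open Fermat.Agent.GaloisBasics Polynomial

namespace Fermat.Agent.LocalInertia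

variable {A : ValuationSubring Qbar} {q : ℕ}

/-- Inertia at `q` acts transitively on the `m`-th roots of `q`, for `m` prime to `q`. -/
theorem exists_inertia_apply_root (hA : A.LiesOverPrime q) (hq : q.Prime) {m : ℕ}
    (hm : ¬ q ∣ m) {x : Qbar} (hx : x ^ m = q) {ζ : Qbar} (hζ : ζ ^ m = 1) :
    ∃ σ ∈ A.inertiaSubgroupIn ℚ, σ x = ζ * x := by
  have hm0 : m ≠ 0 := fun h => hm (h ▸ dvd_zero q)
  have hmpos : 0 < m := Nat.pos_of_ne_zero hm0
  have : NeZero m := ⟨hm0⟩
  have hqQ : (q : Qbar) ≠ 0 := Nat.cast_ne_zero.2 hq.ne_zero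
  have hx0 : x ≠ 0 := by
    rintro rfl
    rw [zero_pow hm0] at hx
    exact hqQ hx.symm
  let R : Set Qbar := {y | y ^ m = q}
  have : Finite R := by
    refine Set.Finite.to_subtype (((X ^ m - C (q : Qbar)).roots.toFinset.finite_toSet).subset ?_)
    intro y hy
    simp only [Finset.mem_coe, Multiset.mem_toFinset, mem_roots (X_pow_sub_C_ne_zero hmpos _)]
    simpa [sub_eq_zero] using (show y ^ m = (q : Qbar) from hy)
  have hint : ∀ y ∈ R, IsIntegral ℤ y := fun y hy =>
    IsIntegral.of_pow hmpos (by
      rw [show y ^ m = (q : Qbar) from hy]; exact isIntegral_algebraMap (R := ℤ) (x := (q : ℤ)))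
  let K : IntermediateField ℚ Qbar := IntermediateField.adjoin ℚ R
  have : FiniteDimensional ℚ K :=
    IntermediateField.finiteDimensional_adjoin fun y hy => (hint y hy).tower_top
  have : Normal ℚ K := IntermediateField.normal_iff_forall_map_le'.2 fun g => by
    rw [IntermediateField.adjoin_map]
    refine IntermediateField.adjoin.mono ℚ _ _ ?_
    rintro _ ⟨y, hy, rfl⟩
    show (g.toAlgHom y) ^ m = q
    rw [← map_pow, show y ^ m = (q : Qbar) from hy, map_natCast]
  have : IsGalois ℚ K := ⟨⟩
  have : NumberField K := ⟨⟩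
  have hxK : x ∈ K := IntermediateField.subset_adjoin ℚ R hx
  let P := intIdeal K A
  have : P.IsMaximal := intIdeal_isMaximal K hA hq
  have := IsGaloisGroup.of_isFractionRing (K ≃ₐ[ℚ] K) ℤ (𝓞 K) ℚ K
  have : (P.under ℤ).IsPrime := Ideal.IsPrime.under ℤ P
  -- the ramification index is at least `m`
  have hcard : m ≤ Nat.card (P.inertia (K ≃ₐ[ℚ] K)) := by
    rw [Ideal.card_inertia_eq_ramificationIdxIn (P.under ℤ) P,
      Ideal.ramificationIdxIn_eq_ramificationIdx _ P (K ≃ₐ[ℚ] K)]
    have hne : (P.under ℤ).map (algebraMap ℤ (𝓞 K)) ≠ ⊥ := by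
      refine Ideal.map_ne_bot_of_ne_bot ?_
      rw [under_int_intIdeal K hA hq]
      simp [hq.ne_zero]
    rw [Ideal.IsDedekindDomain.ramificationIdx_eq_multiplicity (P.under ℤ) P hne]
    refine FiniteMultiplicity.le_multiplicity_of_pow_dvd ?_ ?_
    · exact FiniteMultiplicity.of_prime_left
        (Ideal.prime_of_isPrime (ne_bot_of_le_ne_bot hne Ideal.map_comap_le) inferInstance) hne
    · rw [Ideal.dvd_iff_le, under_int_intIdeal K hA hq, Ideal.map_span, Ideal.span_le,
        Set.image_singleton, Set.singleton_subset_iff]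
      let x' : 𝓞 K := ⟨⟨x, hxK⟩,
        (isIntegral_algebraMap_iff (A := K) (B := Qbar) Subtype.val_injective).1 (hint x hx)⟩
      have hx' : x' ^ m = algebraMap ℤ (𝓞 K) q := by
        apply NumberField.RingOfIntegers.ext
        apply Subtype.ext
        simpa [x'] using hx
      rw [SetLike.mem_coe, ← hx']
      refine Ideal.pow_mem_pow ((mem_intIdeal K).2 ?_) m
      show x ∈ A.nonunits
      by_contra hcon
      refine hcon ?_
      rw [ValuationSubring.mem_nonunits_iff]
      refine lt_of_not_ge fun h1 => ?_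
      have h2 : A.valuation (x ^ m) < 1 := by
        rw [hx]; exact A.mem_nonunits_iff.1 hA
      rw [map_pow] at h2
      exact absurd h2 (not_lt.2 (one_le_pow₀ h1))
  -- the map `g ↦ g x / x` is injective on the inertia group
  let S : Finset Qbar := nthRootsFinset m (1 : Qbar)
  have hmemS : ∀ z : Qbar, z ∈ S ↔ z ^ m = 1 := fun z => mem_nthRootsFinset hmpos 1
  have himg : ∀ g ∈ P.inertia (K ≃ₐ[ℚ] K), ∃ σ ∈ A.inertiaSubgroupIn ℚ, restrictK K σ = g := by
    intro g hg
    have h := map_inertiaSubgroupIn K hA hq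
    rw [← h] at hg
    exact hg
  choose s hsI hsg using himg
  let f : P.inertia (K ≃ₐ[ℚ] K) → S := fun g => ⟨s g g.2 x / x, by
    rw [hmemS, div_pow, ← map_pow, hx, map_natCast, div_self hqQ]⟩
  have hf : Function.Injective f := by
    intro g g' hgg'
    have hsx : s g g.2 x = s g' g'.2 x := by
      have := congrArg Subtype.val hgg'
      simpa [f, hx0] using this
    apply Subtype.ext
    rw [← hsg g g.2, ← hsg g' g'.2]
    have hfix : (s g g.2)⁻¹ * s g' g'.2 ∈ K.fixingSubgroup := by
      rw [IntermediateField.mem_fixingSubgroup_iff]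
      intro z hz
      induction hz using IntermediateField.adjoin_induction with
      | mem y hy =>
        have hu : (y / x) ^ m = 1 := by
          rw [div_pow, show y ^ m = (q : Qbar) from hy, hx, div_self hqQ]
        have hI : (s g g.2)⁻¹ * s g' g'.2 ∈ A.inertiaSubgroupIn ℚ :=
          mul_mem (inv_mem (hsI g g.2)) (hsI g' g'.2)
        have h1 := inertia_apply_of_pow_eq_one hA hq hm hI hu
        have h2 : ((s g g.2)⁻¹ * s g' g'.2) x = x := by
          rw [AlgEquiv.mul_apply, ← hsx]
          exact (s g g.2).symm_apply_apply x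
        calc ((s g g.2)⁻¹ * s g' g'.2) y = ((s g g.2)⁻¹ * s g' g'.2) (y / x * x) := by
              rw [div_mul_cancel₀ _ hx0]
          _ = y := by rw [map_mul, h1, h2, div_mul_cancel₀ _ hx0]
      | algebraMap r => exact AlgEquiv.commutes _ r
      | add a b _ _ ha hb => rw [map_add, ha, hb]
      | inv a _ ha => rw [map_inv₀, ha]
      | mul a b _ _ ha hb => rw [map_mul, ha, hb]
    rw [← ker_restrictK, MonoidHom.mem_ker, map_mul, map_inv, inv_mul_eq_one] at hfix
    exact hfix
  have hS : Nat.card S ≤ m := by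
    rw [Nat.card_eq_fintype_card, Fintype.card_coe]
    show (nthRootsFinset m (1 : Qbar)).card ≤ m
    rw [nthRootsFinset_def]
    exact (Multiset.toFinset_card_le _).trans (card_nthRoots m _)
  have hb : Function.Bijective f :=
    (Nat.bijective_iff_injective_and_card f).2
      ⟨hf, le_antisymm (Nat.card_le_card_of_injective f hf) (hS.trans hcard)⟩
  obtain ⟨g, hg⟩ := hb.2 ⟨ζ, (hmemS ζ).2 hζ⟩
  refine ⟨s g g.2, hsI g g.2, ?_⟩
  have hval : s g g.2 x / x = ζ := congrArg Subtype.val hg
  rw [← hval, div_mul_cancel₀ _ hx0]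

end Fermat.Agent.LocalInertia
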