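import Mathlib.NumberTheory.NumberField.Cyclotomic.Basic
import Mathlib.NumberTheory.Cyclotomic.Gal
import Fermat.Agent.GaloisBasics.Galois
import Fermat.Agent.GaloisBasics.Roots

/-!
# The cyclotomic character on inertia at `p`

At a place above `p` the inertia subgroup surjects onto `(ℤ/p^k)ˣ` through the mod `p^k`
cyclotomic character.
-/

set_option autoImplicit false

open scoped Pointwise NumberField
open Fermat.Agent.GaloisBasics IntermediateField

namespace Fermat.Agent.LocalInertia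

variable {A : ValuationSubring Qbar} {p : ℕ}

/-- A root of unity of `p`-power order is congruent to `1` at a place over `p`. -/
lemma residue_eq_one_of_pow_prime_pow_eq_one (hA : A.LiesOverPrime p) (hp : p.Prime) {k : ℕ}
    {μ : Zbar} (hμ : μ ^ p ^ k = 1) : zbarResidue A μ = 1 := by
  have := residueField_charP hA hp
  have : Fact p.Prime := ⟨hp⟩
  have h : zbarResidue A μ ^ p ^ k = 1 := by rw [← map_pow, hμ, map_one]
  rw [← sub_eq_zero, ← pow_eq_zero_iff (pow_ne_zero k hp.ne_zero), sub_pow_char_pow, h, one_pow,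
    sub_self]

/-- For `a` prime to `p` there is an element of inertia at a place over `p` raising every
`p^k`-th root of unity to the power `a`. -/
theorem exists_inertia_pow_on_rootsOfUnity (hA : A.LiesOverPrime p) (hp : p.Prime) (k : ℕ)
    {a : ℕ} (ha : a.Coprime p) :
    ∃ σ ∈ A.inertiaSubgroupIn ℚ, ∀ μ : Qbar, μ ^ p ^ k = 1 → σ μ = μ ^ a := by
  have : Fact p.Prime := ⟨hp⟩
  have : NeZero (p ^ k) := ⟨pow_ne_zero k hp.ne_zero⟩
  obtain ⟨ζ, hζ⟩ := HasEnoughRootsOfUnity.exists_primitiveRoot Qbar (p ^ k)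
  have := hζ.intermediateField_adjoin_isCyclotomicExtension ℚ
  have : IsCyclotomicExtension {p ^ k} ℚ ℚ⟮ζ⟯ := hζ.intermediateField_adjoin_isCyclotomicExtension ℚ
  -- some automorphism with `ζ ↦ ζ ^ a`
  have hirr : Irreducible (Polynomial.cyclotomic (p ^ k) ℚ) :=
    Polynomial.cyclotomic.irreducible_rat (NeZero.pos _)
  have hmin : minpoly ℚ ζ = minpoly ℚ (ζ ^ a) := by
    rw [← Polynomial.cyclotomic_eq_minpoly_rat hζ (NeZero.pos _),
      ← Polynomial.cyclotomic_eq_minpoly_rat (hζ.pow_of_coprime a (ha.pow_right k)) (NeZero.pos _)]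
  obtain ⟨σ₀, hσ₀⟩ := (Normal.minpoly_eq_iff_mem_orbit (F := ℚ) (E := Qbar)).1 hmin.symm
  simp only [AlgEquiv.smul_def] at hσ₀
  let z : Zbar := ⟨ζ, (hζ.isIntegral (NeZero.pos _) : IsIntegral ℤ ζ)⟩
  have hz : z ^ p ^ k = 1 := NumberField.RingOfIntegers.ext (by simpa [z] using hζ.pow_eq_one)
  have hσ₀z : σ₀ • z = z ^ a := NumberField.RingOfIntegers.ext (by simpa [z] using hσ₀)
  obtain ⟨τ, hτ, hmem⟩ := exists_mem_inertia_lift hA hp (ℚ⟮ζ⟯).fixingSubgroup
    (InfiniteGalois.fixingSubgroup_isClosed _) σ₀ fun b hb => by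
      -- `b` is an integral element of `ℚ(ζ)`, hence a polynomial in `ζ`
      have hbK : (b : Qbar) ∈ ℚ⟮ζ⟯ := by
        rw [← InfiniteGalois.fixedField_fixingSubgroup ℚ⟮ζ⟯, IntermediateField.mem_fixedField_iff]
        exact fun g hg => congrArg (fun c : Zbar => (c : Qbar)) (hb g hg)
      have hIC := IsCyclotomicExtension.Rat.isIntegralClosure_adjoin_singleton_of_prime_pow
        (p := p) (k := k) (ζ := IntermediateField.AdjoinSimple.gen ℚ ζ)
        (IsPrimitiveRoot.coe_submonoidClass_iff.mp hζ)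
      have hbint : IsIntegral ℤ (⟨b, hbK⟩ : ℚ⟮ζ⟯) :=
        (isIntegral_algebraMap_iff (A := ℚ⟮ζ⟯) (B := Qbar) Subtype.val_injective).1
          (isIntegral_coe b)
      obtain ⟨⟨y, hy⟩, hyb⟩ := hIC.isIntegral_iff.1 hbint
      rw [Algebra.adjoin_singleton_eq_range_aeval] at hy
      obtain ⟨P, hP⟩ := hy
      have hb' : b = Polynomial.aeval z P := by
        apply NumberField.RingOfIntegers.ext
        have h1 : (b : Qbar) = Polynomial.aeval ζ P := by
          have h2 : y = (⟨b, hbK⟩ : ℚ⟮ζ⟯) := hyb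
          rw [h2] at hP
          have h3 := congrArg (fun t : ℚ⟮ζ⟯ => ((IsScalarTower.toAlgHom ℤ ℚ⟮ζ⟯ Qbar) t)) hP
          simp only [AlgHom.toRingHom_eq_coe, RingHom.coe_coe] at h3
          rw [← Polynomial.aeval_algHom_apply] at h3
          exact h3.symm
        rw [h1]
        exact (Polynomial.aeval_algHom_apply
          (IsScalarTower.toAlgHom ℤ Zbar Qbar) z P)
      rw [hb', ← zbarResidue_eq_iff]
      have hσP : σ₀ • Polynomial.aeval z P = Polynomial.aeval (σ₀ • z) P :=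
        (Polynomial.aeval_algHom_apply (MulSemiringAction.toAlgHom ℤ Zbar σ₀) z P).symm
      rw [hσP, hσ₀z, Polynomial.aeval_def, Polynomial.aeval_def, Polynomial.hom_eval₂,
        Polynomial.hom_eval₂, map_pow, residue_eq_one_of_pow_prime_pow_eq_one hA hp hz, one_pow]
  refine ⟨σ₀ * τ, hmem, fun μ hμ => ?_⟩
  obtain ⟨i, -, rfl⟩ := hζ.eq_pow_of_pow_eq_one hμ
  rw [AlgEquiv.mul_apply, map_pow τ,
    (IntermediateField.mem_fixingSubgroup_iff _ _).1 hτ ζ (mem_adjoin_simple_self ℚ ζ), map_pow,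
    hσ₀, ← pow_mul, ← pow_mul, mul_comm]

/-- At a place over `p`, the mod `p^k` cyclotomic character is surjective on inertia. -/
theorem exists_inertia_modularCyclotomicCharacter_eq (hA : A.LiesOverPrime p) (hp : p.Prime)
    (k : ℕ) [NeZero (p ^ k)] (hn : Nat.card (rootsOfUnity (p ^ k) Qbar) = p ^ k)
    (u : (ZMod (p ^ k))ˣ) :
    ∃ σ ∈ A.inertiaSubgroupIn ℚ,
      modularCyclotomicCharacter Qbar hn (σ : Qbar ≃+* Qbar) = u := by
  obtain ⟨b, hb, hbp⟩ : ∃ b : ℕ, (b : ZMod (p ^ k)) = u ∧ b.Coprime p := by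
    rcases Nat.eq_zero_or_pos k with rfl | hk
    · have : Subsingleton (ZMod (p ^ 0)) := inferInstanceAs (Subsingleton (ZMod 1))
      exact ⟨1, Subsingleton.elim _ _, p.coprime_one_left⟩
    · exact ⟨(u : ZMod (p ^ k)).val, ZMod.natCast_zmod_val _,
        (Nat.coprime_pow_right_iff hk _ _).1 (ZMod.val_coe_unit_coprime u)⟩
  obtain ⟨σ, hσ, h⟩ := exists_inertia_pow_on_rootsOfUnity hA hp k hbp
  exact ⟨σ, hσ, Units.ext (by rw [modularCyclotomicCharacter_eq_natCast hn _ b h, hb])⟩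

end Fermat.Agent.LocalInertia
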