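import Fermat.Agent.GaloisBasics.Galois
import Fermat.Agent.LocalInertia.CyclicTame

/-!
# Tame images of inertia over `ℚ`

`exists_inertia_image_generator`: a homomorphism through a finite level, of order prime to `q` on
inertia at `q`, has cyclic image of inertia, on which Frobenius acts as the `q`-th power.
-/

set_option autoImplicit false

open scoped Pointwise
open Fermat.Agent.GaloisBasics

namespace Fermat.Agent.LocalInertia

variable {A : ValuationSubring Qbar} {q : ℕ}

/-- A finite-level homomorphism killing no nontrivial wild element: if every element of the image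
has order prime to `q` then the image of inertia is cyclic, generated by one inertia element `σ₀`,
and a Frobenius conjugates `f σ₀` to its `q`-th power. -/
theorem exists_inertia_image_generator (hA : A.LiesOverPrime q) (hq : q.Prime) {M : Type*}
    [Group M] (f : GalQ →* M) (hf : ∃ F : IntermediateField ℚ Qbar, FiniteDimensional ℚ F ∧
      ∀ σ : GalQ, (∀ x ∈ F, σ x = x) → f σ = 1)
    (hord : ∀ σ ∈ A.inertiaSubgroupIn ℚ, (orderOf (f σ)).Coprime q) :
    ∃ σ₀ ∈ A.inertiaSubgroupIn ℚ, (∀ σ ∈ A.inertiaSubgroupIn ℚ, ∃ j : ℕ, f σ = f σ₀ ^ j) ∧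
      ∀ φ : GalQ, A.IsFrobeniusAt φ q → f φ * f σ₀ * (f φ)⁻¹ = f σ₀ ^ q := by
  obtain ⟨F, hF, hfF⟩ := hf
  let N := IntermediateField.normalClosure ℚ F Qbar
  have : FiniteDimensional ℚ N := normalClosure.is_finiteDimensional ℚ F Qbar
  have : Normal ℚ N := normalClosure.normal ℚ F Qbar
  obtain ⟨σ₀, hσ₀, h⟩ := exists_inertia_generator hq hA N
  refine ⟨σ₀, hσ₀, fun σ hσ => ?_, fun φ hφ => ?_⟩
  · obtain ⟨j, k, hjk⟩ := h σ hσ
    have hmem : (σ₀ ^ j)⁻¹ * σ ∈ A.inertiaSubgroupIn ℚ := mul_mem (inv_mem (pow_mem hσ₀ j)) hσ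
    have h1 : f ((σ₀ ^ j)⁻¹ * σ) ^ q ^ k = 1 := by
      rw [← map_pow]
      exact hfF _ fun x hx => hjk x (IntermediateField.le_normalClosure F hx)
    have h2 := orderOf_eq_one_iff.1 (Nat.eq_one_of_dvd_coprimes ((hord _ hmem).pow_right k)
      dvd_rfl (orderOf_dvd_of_pow_eq_one h1))
    exact ⟨j, by rwa [map_mul, map_inv, map_pow, inv_mul_eq_one, eq_comm] at h2⟩
  · have hw := conj_mul_pow_inv_mem_wildInertia hφ hσ₀
    have h1 := map_wild_eq_one f hq hA ⟨F, hF, hfF⟩ hw
      (hord _ (wildInertia_le_inertiaSubgroupIn hw))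
    rwa [map_mul, map_mul, map_mul, map_inv, map_inv, map_pow, mul_inv_eq_one] at h1

end Fermat.Agent.LocalInertia
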